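import Fermat.Agent.MU.S48.W.A.InterfacesC
import Fermat.Agent.MU.F3.I2.Kappa.KappaC

section MergeWrap_S48_W_A_K_Defs -- from S48/W/A/K/Defs.lean

set_option autoImplicit false

noncomputable section

namespace Fermat.Agent.S48WA

open UpperHalfPlane CongruenceSubgroup ModularCurve AlgebraicCurve Filter Topology
open scoped MatrixGroups ModularForm Manifold
open Fermat.Agent.S23 Fermat.Agent.S48W Fermat.Agent.S48WA2 Fermat.Agent.F3I2

/-- `Γ₁(M)` inside `GL₂(ℝ)`. -/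
abbrev G1 (M : ℕ) : Subgroup (GL (Fin 2) ℝ) :=
  (CongruenceSubgroup.Gamma1 M).map (Matrix.SpecialLinearGroup.mapGL ℝ)

/-- **the dictionary of block A2**, bundled (fields: the Props of `A/DictInterface.lean`). -/
class HasDict1 (M : ℕ) [NeZero M] : Prop where
  d1a : DictD1a1 M
  d1b : DictD1b1 M
  d2a : DictD2a1 M
  d2b : DictD2b1 M
  hpd : DictHPD1 M
  const : DictConst1 M

/-- Modular form of weight `w` and character `χ` on `Γ₁(M)` (unbundled). -/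
structure IsFormChar (M : ℕ) (w : ℤ) (χ : ↥(Gamma1 M) →* ℂˣ) (f : ℍ → ℂ) : Prop where
  mdiff : MDiff f
  slash : ∀ γ : ↥(Gamma1 M), f ∣[w] (γ : SL(2, ℤ)) = ((χ γ : ℂˣ) : ℂ) • f
  bdd : ∀ g : SL(2, ℤ), IsBoundedAtImInfty (f ∣[w] g)

/-- `x = f / g` where `f, g` are (functions underlying) modular forms of equal weight on
`Γ₁(M)`, `g ≠ 0`. -/
def IsRatioF (M : ℕ) [NeZero M] (x : FC1 M) (f g : ℍ → ℂ) : Prop :=
  g ≠ 0 ∧ (∃ w : ℤ, IsMF (G1 M) w f ∧ IsMF (G1 M) w g) ∧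
    qLaurent f = (x : LaurentSeries ℂ) * qLaurent g

/-- The class `c` is `[(1/n) div (f^n / B^n)]` for a form `f` of character `χ`. -/
def IsTheta (M n : ℕ) [NeZero M] (χ : ↥(Gamma1 M) →* ℂˣ) (c : Pic0 ℂ (FC1 M)) : Prop :=
  (∀ γ, χ γ ^ n = 1) ∧
  ∃ (w : ℤ) (f B : ℍ → ℂ) (x : FC1 M) (D : Divisor.degZero (K := ℂ) (F := FC1 M)),
    IsFormChar M w χ f ∧ IsFormChar M w 1 B ∧ f ≠ 0 ∧ B ≠ 0 ∧
    IsRatioF M x (f ^ n) (B ^ n) ∧ IsRootDiv n x D ∧ Pic0.mk D = c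

/-! ### `q`-expansions of modular forms on `Γ₁(M)` -/

theorem one_mem_strictPeriods_G1 (M : ℕ) : (1 : ℝ) ∈ (G1 M).strictPeriods := by
  rw [show G1 M = ((CongruenceSubgroup.Gamma1 M : Subgroup SL(2, ℤ)) : Subgroup (GL (Fin 2) ℝ))
    from rfl, CongruenceSubgroup.strictPeriods_Gamma1]
  exact AddSubgroup.mem_zmultiples 1

theorem hasQ_of_isMF {M : ℕ} {k : ℤ} {f : ℍ → ℂ} (hf : IsMF (G1 M) k f) :
    Fermat.Agent.S28.QExp.HasQ f (qLaurent f) :=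
  Fermat.Agent.S28.QExp.HasQ.of_isMF' (one_mem_strictPeriods_G1 M) hf

end Fermat.Agent.S48WA
end
end MergeWrap_S48_W_A_K_Defs
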