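import Fermat.Agent.MU.S48.W.A.K.Defs
import Fermat.Agent.MU.S48.W.A.Eis
import Fermat.Agent.MU.S48.W.A.K.Ratio

section MergeWrap_S48_W_A_K_Form -- from S48/W/A/K/Form.lean

set_option autoImplicit false
set_option linter.unusedSectionVars false

noncomputable section

namespace Fermat.Agent.S48WA

open UpperHalfPlane CongruenceSubgroup Filter Topology
open scoped MatrixGroups ModularForm Manifold
open Fermat.Agent.S23 Fermat.Agent.S48W Fermat.Agent.S48WA2 Fermat.Agent.F3I2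

variable {N : ℕ}

theorem IsFormChar.mul {w w' : ℤ} {χ χ' : ↥(Gamma1 N) →* ℂˣ} {f f' : ℍ → ℂ}
    (hf : IsFormChar N w χ f) (hf' : IsFormChar N w' χ' f') :
    IsFormChar N (w + w') (χ * χ') (f * f') := by
  refine ⟨hf.mdiff.mul hf'.mdiff, fun γ => ?_, fun g => ?_⟩
  · rw [ModularForm.mul_slash_SL2, hf.slash, hf'.slash]
    funext z
    simp only [Pi.mul_apply, Pi.smul_apply, smul_eq_mul, MonoidHom.mul_apply, Units.val_mul]
    ring
  · rw [ModularForm.mul_slash_SL2]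
    exact (hf.bdd g).mul (hf'.bdd g)

theorem isFormChar_one : IsFormChar N 0 1 (1 : ℍ → ℂ) := by
  refine ⟨mdifferentiable_const, fun γ => ?_, fun g => ?_⟩
  · rw [ModularForm.is_invariant_one]
    simp
  · rw [ModularForm.is_invariant_one]
    exact const_boundedAtFilter _ _

theorem IsFormChar.pow {w : ℤ} {χ : ↥(Gamma1 N) →* ℂˣ} {f : ℍ → ℂ}
    (hf : IsFormChar N w χ f) (n : ℕ) : IsFormChar N (n * w) (χ ^ n) (f ^ n) := by
  induction n with
  | zero =>
    have e : ((0 : ℕ) : ℤ) * w = 0 := by simp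
    rw [e, pow_zero χ, pow_zero f]
    exact isFormChar_one
  | succ n ih =>
    have e : ((n + 1 : ℕ) : ℤ) * w = n * w + w := by push_cast; ring
    rw [e, pow_succ χ, pow_succ f]
    exact ih.mul hf

/-- A modular form on `Γ₀(N)` is a form with trivial character. -/
theorem isFormChar_of_modularForm [NeZero N] {w : ℤ} (A : ModularForm (Gamma1 N) w) :
    IsFormChar N w 1 (⇑A) := by
  refine ⟨ModularFormClass.holo A, fun γ => ?_, fun g => ?_⟩
  · have h := SlashInvariantForm.slash_action_eqn A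
      (Matrix.SpecialLinearGroup.mapGL ℝ (γ : SL(2, ℤ)))
      (Subgroup.mem_map_of_mem _ γ.2)
    have h' : (⇑A) ∣[w] (γ : SL(2, ℤ)) = ⇑A := h
    rw [h']
    simp
  · have hc : IsCusp (Matrix.SpecialLinearGroup.mapGL ℝ g • (OnePoint.infty : OnePoint ℝ))
        ((Gamma1 N : Subgroup SL(2, ℤ)) : Subgroup (GL (Fin 2) ℝ)) := by
      rw [Subgroup.IsArithmetic.isCusp_iff_isCusp_SL2Z]
      exact isCusp_SL2Z_iff'.mpr ⟨g, rfl⟩
    have hb := ModularFormClass.bdd_at_cusps A hc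
    exact hb _ rfl

/-- A form with trivial character is (the function underlying) a modular form on `Γ₀(N)`. -/
theorem IsFormChar.exists_modularForm {w : ℤ} {f : ℍ → ℂ} (hf : IsFormChar N w 1 f) :
    ∃ A : ModularForm (Gamma1 N) w, ⇑A = f := by
  refine ⟨{ toFun := f
            slash_action_eq' := ?_
            holo' := hf.mdiff
            bdd_at_cusps' := ?_ }, rfl⟩
  · rintro _ ⟨γ, hγ, rfl⟩
    have h2 : f ∣[w] γ = f := by simpa using hf.slash ⟨γ, hγ⟩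
    exact h2
  · intro c hc
    have hc' : IsCusp c 𝒮ℒ := hc.mono (Subgroup.map_le_range _ _)
    rw [OnePoint.isBoundedAt_iff_forall_SL2Z hc']
    intro γ _
    exact hf.bdd γ


/-- The Eisenstein series with character (helper22, `A/Eis.lean`) as a form with character. -/
theorem exists_isFormChar_eis [NeZero N] (χ : ↥(Gamma1 N) →* ℂˣ)
    (hχ1 : ∀ γ, ‖((χ γ : ℂˣ) : ℂ)‖ = 1)
    (hχinf : ∀ γ : ↥(Gamma1 N), (γ : SL(2, ℤ)) 1 0 = 0 → χ γ = 1)
    (k : ℤ) (hk : 3 ≤ k) (hk2 : Even k) : ∃ E : ℍ → ℂ, IsFormChar N k χ E ∧ E ≠ 0 := by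
  obtain ⟨E, h1, h2, h3, h4⟩ := exists_eisenstein_character1 χ hχ1 hχinf k hk hk2
  exact ⟨E, ⟨h1, h2, h4⟩, h3⟩

end Fermat.Agent.S48WA
end
end MergeWrap_S48_W_A_K_Form

section MergeWrap_S48_W_A_K_Theta -- from S48/W/A/K/Theta.lean

set_option autoImplicit false
set_option linter.unusedSectionVars false

noncomputable section

namespace Fermat.Agent.S48WA

open UpperHalfPlane CongruenceSubgroup ModularCurve AlgebraicCurve
open scoped MatrixGroups ModularForm Manifold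
open Fermat.Agent.S23 Fermat.Agent.S48W Fermat.Agent.S48WA2 Fermat.Agent.F3I2

variable {N : ℕ} [NeZero N]

theorem IsFormChar.isMF {w : ℤ} {f : ℍ → ℂ} (hf : IsFormChar N w 1 f) : IsMF (G1 N) w f :=
  hf.exists_modularForm

theorem isFormChar_of_isMF {w : ℤ} {f : ℍ → ℂ} (hf : IsMF (G1 N) w f) : IsFormChar N w 1 f := by
  obtain ⟨A, rfl⟩ := hf
  exact isFormChar_of_modularForm A

theorem IsFormChar.cast {w w' : ℤ} {χ χ' : ↥(Gamma1 N) →* ℂˣ} {f : ℍ → ℂ}
    (hf : IsFormChar N w χ f) (hw : w = w') (hχ : χ = χ') : IsFormChar N w' χ' f := by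
  subst hw; subst hχ; exact hf

/-- A form whose `n`-th power has trivial character: the `n`-th power is a modular form. -/
theorem IsFormChar.pow_isMF {w : ℤ} {χ : ↥(Gamma1 N) →* ℂˣ} {f : ℍ → ℂ}
    (hf : IsFormChar N w χ f) {n : ℕ} (hχ : ∀ γ, χ γ ^ n = 1) : IsMF (G1 N) (n * w) (f ^ n) := by
  have h := hf.pow n
  have h1 : χ ^ n = 1 := by
    ext γ
    simpa using congrArg Units.val (hχ γ)
  exact (h.cast rfl h1).isMF

theorem IsTheta.one (N n : ℕ) [NeZero N] : IsTheta N n 1 (0 : Pic0 ℂ (FC1 N)) := by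
  refine ⟨fun γ => by simp, 0, 1, 1, 1, 0, ?_, ?_, one_ne_zero, one_ne_zero, ?_, ?_, rfl⟩
  · exact isFormChar_of_isMF IsMF.one
  · exact isFormChar_of_isMF IsMF.one
  · refine ⟨by simp, ⟨0, ?_, ?_⟩, ?_⟩
    · rw [one_pow]; exact IsMF.one
    · rw [one_pow]; exact IsMF.one
    · simp
  · refine ⟨one_ne_zero, fun v => ?_⟩
    simp

theorem IsTheta.mul {n : ℕ} (hn : n ≠ 0) {χ χ' : ↥(Gamma1 N) →* ℂˣ} {c c' : Pic0 ℂ (FC1 N)}
    (h : IsTheta N n χ c) (h' : IsTheta N n χ' c') : IsTheta N n (χ * χ') (c + c') := by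
  obtain ⟨hχ, w, f, B, x, D, hf, hB, hf0, hB0, hr, hD, rfl⟩ := h
  obtain ⟨hχ', w', f', B', x', D', hf', hB', hf0', hB0', hr', hD', rfl⟩ := h'
  refine ⟨fun γ => by rw [MonoidHom.mul_apply, mul_pow, hχ, hχ', one_mul],
    w + w', f * f', B * B', x * x', D + D', hf.mul hf',
    (hB.mul hB').cast rfl (one_mul (1 : ↥(Gamma1 N) →* ℂˣ)),
    ?_, ?_, ?_, hD.mul hD', rfl⟩
  · intro h0
    have h1 : (f * f') ^ n = 0 := by rw [h0, zero_pow hn]
    rw [mul_pow] at h1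
    exact isMF_mul_ne_zero (hf.pow_isMF hχ) (hf'.pow_isMF hχ') (pow_ne_zero_fun hf0 n)
      (pow_ne_zero_fun hf0' n) h1
  · exact isMF_mul_ne_zero hB.isMF hB'.isMF hB0 hB0'
  · rw [mul_pow, mul_pow]
    exact hr.mul hr'

theorem IsTheta.congr {n : ℕ} {χ χ' : ↥(Gamma1 N) →* ℂˣ} {c c' : Pic0 ℂ (FC1 N)}
    (h : IsTheta N n χ c) (hχ : χ = χ') (hc : c = c') : IsTheta N n χ' c' := by
  subst hχ; subst hc; exact h

theorem IsTheta.pow {n : ℕ} (hn : n ≠ 0) {χ : ↥(Gamma1 N) →* ℂˣ} {c : Pic0 ℂ (FC1 N)}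
    (h : IsTheta N n χ c) (m : ℕ) : IsTheta N n (χ ^ m) (m • c) := by
  induction m with
  | zero =>
    refine (IsTheta.one N n).congr ?_ (zero_nsmul c).symm
    ext γ
    simp
  | succ k ih =>
    refine (ih.mul hn h).congr ?_ (succ_nsmul c k).symm
    ext γ
    simp [pow_succ]

theorem IsTheta.nsmul_eq_zero {n : ℕ} {χ : ↥(Gamma1 N) →* ℂˣ} {c : Pic0 ℂ (FC1 N)}
    (h : IsTheta N n χ c) : n • c = 0 := by
  obtain ⟨-, w, f, B, x, D, -, -, -, -, -, hD, rfl⟩ := h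
  have := hD.nsmul_mk_eq_zero
  rwa [natCast_zsmul] at this

/-- For the trivial character the class vanishes. -/
theorem IsTheta.eq_zero_of_one [HasDict1 N] {n : ℕ} (hn : n ≠ 0) {c : Pic0 ℂ (FC1 N)}
    (h : IsTheta N n 1 c) : c = 0 := by
  obtain ⟨-, w, f, B, x, D, hf, hB, hf0, hB0, hr, hD, rfl⟩ := h
  obtain ⟨y, hy⟩ := exists_isRatioF hf.isMF hB.isMF hB0
  have hxy : x = y ^ n := hr.unique (IsRatioF.one_pow n hy)
  rw [hxy] at hD
  exact hD.mk_eq_zero_of_pow (Nat.pos_of_ne_zero hn)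

/-- The class depends only on the character. -/
theorem IsTheta.unique [HasDict1 N] {n : ℕ} (hn : n ≠ 0) {χ : ↥(Gamma1 N) →* ℂˣ}
    {c c' : Pic0 ℂ (FC1 N)} (h : IsTheta N n χ c) (h' : IsTheta N n χ c') : c = c' := by
  have h1 := h.mul hn (h'.pow hn (n - 1))
  have hχ : χ * χ ^ (n - 1) = 1 := by
    ext γ
    have h2 : χ γ * χ γ ^ (n - 1) = χ γ ^ n := by
      rw [← pow_succ', Nat.sub_add_cancel (Nat.one_le_iff_ne_zero.2 hn)]
    simpa using congrArg Units.val (h2.trans (h.1 γ))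
  rw [hχ] at h1
  have h2 := h1.eq_zero_of_one hn
  have h3 := h'.nsmul_eq_zero
  have h4 : n • c' = (n - 1) • c' + c' := by
    rw [← succ_nsmul, Nat.sub_add_cancel (Nat.one_le_iff_ne_zero.2 hn)]
  rw [h4] at h3
  have h5 : (n - 1) • c' = -c' := eq_neg_of_add_eq_zero_left h3
  rw [h5] at h2
  exact (add_neg_eq_zero.1 h2)

/-- From level `d * n` to level `n`: same function, `d`-th powers of the forms, `d • D`. -/
theorem IsTheta.of_mul {n d : ℕ} {χ : ↥(Gamma1 N) →* ℂˣ} {c : Pic0 ℂ (FC1 N)}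
    (h : IsTheta N (d * n) χ c) : IsTheta N n (χ ^ d) (d • c) := by
  obtain ⟨hχ, w, f, B, x, D, hf, hB, hf0, hB0, hr, hD, rfl⟩ := h
  refine ⟨fun γ => by rw [MonoidHom.pow_apply, ← pow_mul, hχ], d * w, f ^ d, B ^ d, x, d • D,
    hf.pow d, (hB.pow d).cast rfl (by ext γ; simp), pow_ne_zero_fun hf0 d, pow_ne_zero_fun hB0 d,
    ?_, ?_, ?_⟩
  · rw [← pow_mul, ← pow_mul]
    exact hr
  · refine ⟨hD.1, fun v => ?_⟩
    have h1 := hD.2 v
    rw [← h1]
    simp only [AddSubgroup.coe_nsmul, Finsupp.coe_smul, Pi.smul_apply, nsmul_eq_mul,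
      Nat.cast_mul]
    ring
  · exact map_nsmul (QuotientAddGroup.mk' _) d D

end Fermat.Agent.S48WA
end
end MergeWrap_S48_W_A_K_Theta
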